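import Fermat.Agent.Pic.Rep.Classes

/-!
# The sheaf property from gluing of classes
-/

set_option autoImplicit false

noncomputable section

universe u

open CategoryTheory CategoryTheory.Limits AlgebraicGeometry NeronModelInfra
  AlgebraicGeometry.RelPicard Opposite

namespace FermatAgent.Pic

variable {R : Type u} [CommRing R] {C : Scheme.{u}} {c : C ⟶ Spec (CommRingCat.of R)}
  {ε : SchemeHomOver (𝟙 (Spec (CommRingCat.of R))) c}

/-- The restriction of a bundle to a piece of a cover. -/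
abbrev restrictPiece {T T' : Scheme.{u}} {t : T ⟶ Spec (CommRingCat.of R)} (f : T' ⟶ T)
    (M : RigidifiedLineBundle c ε t) : RigidifiedLineBundle c ε (f ≫ t) :=
  M.pullbackAlong ⟨f, rfl⟩

variable (c ε) in
/-- Classes on an open cover agreeing on overlaps glue uniquely. -/
structure ClassGluing : Prop where
  glue : ∀ {T : Scheme.{u}} (t : T ⟶ Spec (CommRingCat.of R)) (𝒰 : Scheme.OpenCover.{u + 1} T)
    (M : ∀ i, RigidifiedLineBundle c ε (𝒰.f i ≫ t)),
    (∀ i j, SameClass
      ((M i).pullbackAlong (t' := pullback.fst (𝒰.f i) (𝒰.f j) ≫ 𝒰.f i ≫ t)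
        ⟨pullback.fst (𝒰.f i) (𝒰.f j), rfl⟩)
      ((M j).pullbackAlong (t' := pullback.fst (𝒰.f i) (𝒰.f j) ≫ 𝒰.f i ≫ t)
        ⟨pullback.snd (𝒰.f i) (𝒰.f j), by rw [← pullback.condition_assoc]⟩)) →
    ∃ M₀ : RigidifiedLineBundle c ε t, ∀ i, SameClass (restrictPiece (𝒰.f i) M₀) (M i)
  unique : ∀ {T : Scheme.{u}} (t : T ⟶ Spec (CommRingCat.of R)) (𝒰 : Scheme.OpenCover.{u + 1} T)
    (M M' : RigidifiedLineBundle c ε t),
    (∀ i, SameClass (restrictPiece (𝒰.f i) M) (restrictPiece (𝒰.f i) M')) → SameClass M M'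

/-- A condition decided on an open cover. -/
def IsLocalCondition (Q : SubPicCondition c ε) : Prop :=
  ∀ {T : Scheme.{u}} (t : T ⟶ Spec (CommRingCat.of R)) (𝒰 : Scheme.OpenCover.{u + 1} T)
    (M : RigidifiedLineBundle c ε t),
    (∀ i, Q.P _ (restrictPiece (𝒰.f i) M)) → Q.P t M

variable {Q : SubPicCondition c ε} [∀ T : Scheme.{u}, Small.{u} (FamilyClass Q T)]

omit [∀ T : Scheme.{u}, Small.{u} (FamilyClass Q T)] in
/-- Families on the same map with the same class are equivalent. -/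
theorem FamilyOn.rel_of_sameClass {T : Scheme.{u}} {t : T ⟶ Spec (CommRingCat.of R)}
    {M M' : RigidifiedLineBundle c ε t} {h : Q.P t M} {h' : Q.P t M'} (e : SameClass M' M) :
    (⟨t, M, h⟩ : FamilyOn Q T) ≈ ⟨t, M', h'⟩ :=
  ⟨Category.id_comp _, (sameClass_pullbackAlong_id _ _).trans e⟩

/-- The presheaf of classes is a sheaf if classes glue and the condition is local. -/
theorem isSheaf_famPresheaf (hg : ClassGluing c ε) (hQ : IsLocalCondition Q) :
    Presieve.IsSheaf Scheme.zariskiTopology (famPresheaf Q) := by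
  rw [Precoverage.isSheaf_toGrothendieck_iff_of_isStableUnderBaseChange]
  rintro T S hS x hx
  obtain ⟨(𝒰 : Scheme.OpenCover.{u + 1} T), rfl⟩ := Scheme.exists_cover_of_mem_pretopology hS
  choose a ha using fun i => exists_famMk Q (x (𝒰.f i) (.mk i))
  have hcompat : ∀ i j, (a i).map (pullback.fst (𝒰.f i) (𝒰.f j)) ≈
      (a j).map (pullback.snd (𝒰.f i) (𝒰.f j)) := fun i j => by
    rw [← famMk_eq_iff, ← famPresheaf_map_mk, ← famPresheaf_map_mk, ha, ha]
    exact hx _ _ (.mk i) (.mk j) pullback.condition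
  have ht : ∀ i j, pullback.fst (𝒰.f i) (𝒰.f j) ≫ (a i).t =
      pullback.snd (𝒰.f i) (𝒰.f j) ≫ (a j).t := fun i j => by
    obtain ⟨h, -⟩ := hcompat i j
    exact (Category.id_comp _).symm.trans h |>.symm
  let t : T ⟶ Spec (CommRingCat.of R) := 𝒰.glueMorphisms (fun i => (a i).t) ht
  have hti : ∀ i, 𝒰.f i ≫ t = (a i).t := fun i => Scheme.Cover.ι_glueMorphisms ..
  let M : ∀ i, RigidifiedLineBundle c ε (𝒰.f i ≫ t) := fun i =>
    (a i).cast (by rw [Category.id_comp, hti i])
  obtain ⟨M₀, hM₀⟩ := hg.glue t 𝒰 M fun i j => by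
    obtain ⟨h, e⟩ := hcompat i j
    refine (sameClass_pullbackAlong_comp _ _ _).trans (SameClass.trans ?_
      (sameClass_pullbackAlong_comp _ _ _).symm)
    have e2 := (((sameClass_pullbackAlong_comp _ _ _).symm.trans e).symm).pullback
      (t' := pullback.fst (𝒰.f i) (𝒰.f j) ≫ 𝒰.f i ≫ t)
      (⟨𝟙 _, by
        show 𝟙 _ ≫ pullback.fst (𝒰.f i) (𝒰.f j) ≫ (a i).t = _
        rw [Category.id_comp, hti]⟩)
    refine SameClass.trans ?_ (SameClass.trans e2 ?_)
    · exact SameClass.trans (sameClass_pullbackAlong_congr _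
        ((Category.comp_id _).trans (Category.id_comp _).symm))
        (sameClass_pullbackAlong_comp _ _ _).symm
    · refine (sameClass_pullbackAlong_comp _ _ _).trans ?_
      exact sameClass_pullbackAlong_congr _ (by simp [postComp])
  have hmem : Q.P t M₀ := hQ t 𝒰 M₀ fun i =>
    Q.congr _ (M i) _ (hM₀ i).symm (Q.pullback_mem _ _ _ _ (a i).mem)
  let b : FamilyOn Q T := ⟨t, M₀, hmem⟩
  have hb : ∀ i, b.map (𝒰.f i) ≈ a i := fun i => by
    refine Setoid.symm ⟨by rw [Category.id_comp]; exact hti i, ?_⟩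
    refine SameClass.trans ((hM₀ i).pullback _) ?_
    refine (sameClass_pullbackAlong_comp _ _ _).trans ?_
    exact (sameClass_pullbackAlong_congr _ (Category.id_comp _)).trans
      (sameClass_pullbackAlong_id _ (Category.id_comp _))
  refine ⟨famMk Q b, ?_, ?_⟩
  · rintro Z f ⟨i⟩
    rw [← ha i, famPresheaf_map_mk, famMk_eq_iff]
    exact hb i
  · intro y hy
    obtain ⟨b', rfl⟩ := exists_famMk Q y
    have h' : ∀ i, b'.map (𝒰.f i) ≈ b.map (𝒰.f i) := fun i => by
      refine Setoid.trans ?_ (Setoid.symm (hb i))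
      rw [← famMk_eq_iff, ← famPresheaf_map_mk, ha]
      exact hy (𝒰.f i) (.mk i)
    have htt : b'.t = t := 𝒰.hom_ext _ _ fun i => by
      obtain ⟨h, -⟩ := h' i
      exact ((Category.id_comp _).symm.trans h).symm
    rw [famMk_eq_iff]
    refine ⟨by rw [htt]; exact Category.id_comp _, ?_⟩
    refine hg.unique _ 𝒰 _ _ fun i => ?_
    obtain ⟨h, e⟩ := h' i
    refine SameClass.trans ?_ e
    refine (sameClass_pullbackAlong_comp _ _ _).trans ?_
    exact (sameClass_pullbackAlong_congr _ (by simp [postComp])).trans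
      (sameClass_pullbackAlong_comp _ _ _).symm

end FermatAgent.Pic
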