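import Mathlib

/-!
# A difference map makes a scheme over a field separated

The diagonal is the inverse image of the origin under the difference map, so is a closed immersion.
-/

set_option autoImplicit false

noncomputable section

universe u

open CategoryTheory CategoryTheory.Limits AlgebraicGeometry

namespace FermatAgent.Pic

/-- A scheme over a point with a difference map is separated. -/
theorem isSeparated_of_diff {D S : Scheme.{u}} [Subsingleton S] (f : D ⟶ S) (e : S ⟶ D)
    (he : e ≫ f = 𝟙 S) (sub : pullback f f ⟶ D) (hsub : sub ≫ f = pullback.fst f f ≫ f)
    (hdiag : pullback.diagonal f ≫ sub = f ≫ e)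
    (hzero : ∀ {T : Scheme.{u}} (x : T ⟶ pullback f f),
      x ≫ sub = x ≫ pullback.fst f f ≫ f ≫ e → x ≫ pullback.fst f f = x ≫ pullback.snd f f) :
    IsSeparated f := by
  have : IsClosedImmersion e := isClosedImmersion_of_comp_eq_id f e he
  have hp : IsPullback f (pullback.diagonal f) e sub := by
    refine IsPullback.of_isLimit' ⟨hdiag.symm⟩ (PullbackCone.IsLimit.mk _
      (fun s => s.snd ≫ pullback.fst f f) (fun s => ?_) (fun s => ?_) fun s m _ h2 => ?_)
    · have h := congrArg (· ≫ f) s.condition
      simp only [Category.assoc, hsub, he, Category.comp_id] at h
      rw [Category.assoc]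
      exact h.symm
    · have h := congrArg (· ≫ f) s.condition
      simp only [Category.assoc, hsub, he, Category.comp_id] at h
      have h' := hzero s.snd (by rw [← s.condition, h]; simp only [Category.assoc])
      apply pullback.hom_ext
      · simp
      · simp [h']
    · rw [← h2]
      simp
  exact ⟨MorphismProperty.of_isPullback (P := @IsClosedImmersion) hp inferInstance⟩

end FermatAgent.Pic
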