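import Fermat.Agent.Pic.Rep.Points
import Fermat.Agent.Pic.Rep.Separated
import Fermat.Agent.Pic.Field.Degree

/-!
# Points of a universal family as rigid bundles; separatedness from the difference map
-/

set_option autoImplicit false

noncomputable section

universe u

open CategoryTheory CategoryTheory.Limits AlgebraicGeometry NeronModelInfra
  AlgebraicGeometry.RelPicard

namespace FermatAgent.Pic

variable {k : Type u} [Field k] {C : Scheme.{u}} {c : C ⟶ Spec (CommRingCat.of k)}
  {ε : SchemeHomOver (𝟙 (Spec (CommRingCat.of k))) c} {P : Pres c ε}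

namespace Bridge

variable {B : Bridge P} {D : Scheme.{u}} {a : FamilyOn B.degCut D}

/-- A point of a universal family is determined by its bundle. -/
theorem ptBdl_injective (hu : IsUniversal a) {A : Type u} [CommRing A] [Algebra k A]
    (s s' : SchemeHomOver (tA (k := k) A) a.t) (h : ptBdl a s ≈ ptBdl a s') : s = s' := by
  obtain ⟨h0, -, huniq⟩ := hu _ (a.M.pullbackAlong s') (B.degCut.pullback_mem _ _ _ _ a.mem)
  exact (huniq s ((B.bdl_iso_iff _ _).mp h)).trans (huniq s' (SameClass.refl _)).symm

/-- Every rigid bundle of degree zero is that of a point of the universal family. -/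
theorem exists_point (hu : IsUniversal a) {A : Type u} [CommRing A] [Algebra k A] (E : Bdl P.X A)
    (hr : E.IsRigid (P.X.cst A P.e)) (hd : E.HasDeg 0) :
    ∃ s : SchemeHomOver (tA (k := k) A) a.t, ptBdl a s ≈ E := by
  obtain ⟨M, hM⟩ := B.exists_bdl E hr
  obtain ⟨s, hs, -⟩ := hu _ M ((B.degCut_iff M).mpr (Bdl.hasDeg_congr (Setoid.symm hM) hd))
  exact ⟨s, Setoid.trans (B.bdl_congr hs) hM⟩

/-- The point of a rigid bundle of degree zero. -/
def pointOf (hu : IsUniversal a) {A : Type u} [CommRing A] [Algebra k A] (E : Bdl P.X A)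
    (hr : E.IsRigid (P.X.cst A P.e)) (hd : E.HasDeg 0) : SchemeHomOver (tA (k := k) A) a.t :=
  (exists_point hu E hr hd).choose

/-- The point of a rigid bundle of degree zero has that bundle. -/
theorem ptBdl_pointOf (hu : IsUniversal a) {A : Type u} [CommRing A] [Algebra k A] (E : Bdl P.X A)
    (hr : E.IsRigid (P.X.cst A P.e)) (hd : E.HasDeg 0) : ptBdl a (pointOf hu E hr hd) ≈ E :=
  (exists_point hu E hr hd).choose_spec

/-- The first component of a pair of points. -/
def fstPt {x y : D ⟶ Spec (CommRingCat.of k)} {A : Type u} [CommRing A] [Algebra k A]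
    (q : SchemeHomOver (tA (k := k) A) (pullback.fst x y ≫ x)) : SchemeHomOver (tA (k := k) A) x :=
  ⟨q.1 ≫ pullback.fst x y, by rw [Category.assoc]; exact q.2⟩

/-- The second component of a pair of points. -/
def sndPt {x y : D ⟶ Spec (CommRingCat.of k)} {A : Type u} [CommRing A] [Algebra k A]
    (q : SchemeHomOver (tA (k := k) A) (pullback.fst x y ≫ x)) : SchemeHomOver (tA (k := k) A) y :=
  ⟨q.1 ≫ pullback.snd x y, by rw [Category.assoc, ← pullback.condition]; exact q.2⟩

variable [IsAlgClosed k]

omit [IsAlgClosed k] in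
theorem diff_rigid {A : Type u} [CommRing A] [Algebra k A]
    (s s' : SchemeHomOver (tA (k := k) A) a.t) :
    ((ptBdl a s).tensor (ptBdl a s').dual).IsRigid (P.X.cst A P.e) :=
  (ptBdl_rigid _).tensor (ptBdl_rigid _).dual

theorem diff_deg {A : Type u} [CommRing A] [Algebra k A]
    (s s' : SchemeHomOver (tA (k := k) A) a.t) :
    ((ptBdl a s).tensor (ptBdl a s').dual).HasDeg 0 := by
  simpa using Bdl.hasDeg_tensor (ptBdl_deg s) (Bdl.hasDeg_dual (ptBdl_deg s'))

/-- The difference of two points. -/
def diffMap (hu : IsUniversal a) : PointMap (k := k) (pullback.fst a.t a.t ≫ a.t) a.t where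
  app A _ _ q := pointOf hu ((ptBdl a (fstPt q)).tensor (ptBdl a (sndPt q)).dual)
    (diff_rigid _ _) (diff_deg _ _)
  natural A A' _ _ _ _ f q q' h := by
    set s := pointOf hu ((ptBdl a (fstPt q)).tensor (ptBdl a (sndPt q)).dual) _ _
    set s' := pointOf hu ((ptBdl a (fstPt q')).tensor (ptBdl a (sndPt q')).dual) _ _
    let w : SchemeHomOver (tA (k := k) A') a.t := postComp s (overAlg f)
    show s'.1 = w.1
    refine congrArg Subtype.val (ptBdl_injective hu s' w ?_)
    refine Setoid.trans (ptBdl_pointOf hu _ _ _) (Setoid.symm ?_)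
    refine Setoid.trans (ptBdl_comp f s w rfl)
      (Setoid.trans (Bdl.map_congr f (ptBdl_pointOf hu _ _ _)) ?_)
    refine Setoid.trans (Bdl.map_tensor f _ _) (Bdl.tensor_congr ?_ ?_)
    · exact Setoid.symm (ptBdl_comp f _ _ (by simp [fstPt, h]))
    · exact Setoid.trans (Bdl.map_dual f _)
        (Bdl.dual_congr (Setoid.symm (ptBdl_comp f _ _ (by simp [sndPt, h]))))

/-- On bundles the difference map is `E ⊗ F⁻¹`. -/
theorem ptBdl_diffMap (hu : IsUniversal a) {A : Type u} [CommRing A] [Algebra k A]
    (q : SchemeHomOver (tA (k := k) A) (pullback.fst a.t a.t ≫ a.t)) :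
    ptBdl a ⟨q.1 ≫ (diffMap hu).hom.1, by rw [Category.assoc, (diffMap hu).hom.2]; exact q.2⟩ ≈
      (ptBdl a (fstPt q)).tensor (ptBdl a (sndPt q)).dual :=
  Setoid.trans (B.bdl_congr (sameClass_pullbackAlong_congr _ ((diffMap hu).comp_hom A q)))
    (ptBdl_pointOf hu _ (diff_rigid _ _) (diff_deg _ _))

omit [IsAlgClosed k] in
/-- The point of the trivial bundle. -/
theorem ptBdl_zero (z : SchemeHomOver (𝟙 (Spec (CommRingCat.of k))) a.t)
    (hz : SameClass (a.M.pullbackAlong z) (RigidifiedLineBundle.unit _))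
    {A : Type u} [CommRing A] [Algebra k A] (s : SchemeHomOver (tA (k := k) A) a.t)
    (h : s.1 = tA (k := k) A ≫ z.1) : ptBdl a s ≈ Bdl.one P.X A := by
  let τ : SchemeHomOver (tA (k := k) A) (𝟙 (Spec (CommRingCat.of k))) :=
    ⟨tA A, Category.comp_id _⟩
  refine Setoid.trans (B.bdl_congr ?_) B.bdl_unit
  exact ((sameClass_pullbackAlong_congr _ (ψ := postComp z τ) h).trans
    (sameClass_pullbackAlong_comp _ _ _).symm).trans
    ((hz.pullback τ).trans ⟨Scheme.Modules.pullbackUnitIso _⟩)

/-- A scheme with a universal family of degree zero is separated. -/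
theorem isSeparated_of_universal (hu : IsUniversal a) : IsSeparated a.t := by
  obtain ⟨z, hz, -⟩ := hu (𝟙 _) (RigidifiedLineBundle.unit (c := c) (ε := ε) _)
    (B.degCut.unit_mem _)
  have key : ∀ {T : Scheme.{u}} (t : T ⟶ Spec (CommRingCat.of k))
      (x : T ⟶ pullback a.t a.t) (hx : x ≫ pullback.fst a.t a.t ≫ a.t = t),
      x ≫ (diffMap hu).hom.1 = t ≫ z.1 ↔ x ≫ pullback.fst a.t a.t = x ≫ pullback.snd a.t a.t := by
    intro T t x hx
    have hd : (x ≫ (diffMap hu).hom.1) ≫ a.t = t := by rw [Category.assoc, (diffMap hu).hom.2, hx]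
    have hz' : (t ≫ z.1) ≫ a.t = t := by rw [Category.assoc, z.2, Category.comp_id]
    constructor
    · intro h
      refine hom_ext_points (x := t) (d := a.t) (by rw [Category.assoc, hx])
        (by rw [Category.assoc, ← pullback.condition, hx]) fun A _ _ r => ?_
      let q : SchemeHomOver (tA (k := k) A) (pullback.fst a.t a.t ≫ a.t) :=
        ⟨r.1 ≫ x, by rw [Category.assoc, hx]; exact r.2⟩
      have e1 := ptBdl_diffMap hu q
      have e2 := ptBdl_zero z hz
        (⟨q.1 ≫ (diffMap hu).hom.1, by rw [Category.assoc, (diffMap hu).hom.2]; exact q.2⟩)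
        (by show (r.1 ≫ x) ≫ _ = _; rw [Category.assoc, h, ← Category.assoc, r.2])
      have e3 : fstPt q = sndPt q := by
        refine ptBdl_injective hu _ _ ?_
        exact Bdl.cls_eq_iff.mp (eq_of_div_eq_one
          ((div_eq_mul_inv _ _).trans (Quotient.sound (Setoid.trans (Setoid.symm e1) e2))))
      simpa [q, fstPt, sndPt] using congrArg Subtype.val e3
    · intro h
      refine hom_ext_points (x := t) (d := a.t) hd hz' fun A _ _ r => ?_
      let q : SchemeHomOver (tA (k := k) A) (pullback.fst a.t a.t ≫ a.t) :=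
        ⟨r.1 ≫ x, by rw [Category.assoc, hx]; exact r.2⟩
      have e1 := ptBdl_diffMap hu q
      have heq : fstPt q = sndPt q :=
        Subtype.ext (by simp only [fstPt, sndPt, q, Category.assoc, h])
      have e2 := Setoid.trans e1 (Setoid.trans
        (Bdl.tensor_congr (E' := ptBdl a (sndPt q)) (by rw [heq]) (Setoid.refl _))
        (Bdl.tensor_dual _))
      let w : SchemeHomOver (tA (k := k) A) a.t :=
        ⟨tA A ≫ z.1, by rw [Category.assoc, z.2, Category.comp_id]⟩
      have e5 := congrArg Subtype.val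
        (ptBdl_injective hu _ w (Setoid.trans e2 (Setoid.symm (ptBdl_zero z hz w rfl))))
      simp only [q, w, Category.assoc] at e5
      rw [e5, ← Category.assoc, r.2]
  refine isSeparated_of_diff a.t z.1 z.2 (diffMap hu).hom.1 (diffMap hu).hom.2 ?_ fun {T} x hx => ?_
  · refine (key a.t (pullback.diagonal a.t) ?_).mpr ?_
    · simp
    · simp
  · exact (key (x ≫ pullback.fst _ _ ≫ a.t) x rfl).mp (by rw [hx]; simp only [Category.assoc])

end Bridge

end FermatAgent.Pic
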