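import Fermat.Agent.Pic.Pres

/-!
# Morphisms from natural maps of affine points

A natural map on affine points is induced by a unique morphism over `k`.
-/

set_option autoImplicit false

noncomputable section

universe u

open CategoryTheory CategoryTheory.Limits AlgebraicGeometry NeronModelInfra
  AlgebraicGeometry.RelPicard

namespace FermatAgent.Pic

variable {k : Type u} [Field k] {X D : Scheme.{u}} {x : X ⟶ Spec (CommRingCat.of k)}
  {d : D ⟶ Spec (CommRingCat.of k)}

/-- Every map between affine schemes over `k` comes from a map of algebras. -/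
theorem exists_overAlg {A A' : Type u} [CommRing A] [Algebra k A] [CommRing A'] [Algebra k A']
    (φ : SchemeHomOver (tA (k := k) A') (tA (k := k) A)) :
    ∃ f : A →ₐ[k] A', (overAlg f).1 = φ.1 := by
  obtain ⟨g, hg⟩ := Spec.map_surjective φ.1
  have h : g.hom.comp (algebraMap k A) = algebraMap k A' := by
    have e := φ.2
    rw [← hg, ← Spec.map_comp] at e
    exact congrArg CommRingCat.Hom.hom (Spec.map_injective e)
  exact ⟨⟨g.hom, fun x => RingHom.congr_fun h x⟩, hg⟩

/-- The algebra of functions on an affine open of a scheme over `k`. -/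
@[reducible]
def openAlgebra (U : X.Opens) (hU : IsAffineOpen U) : Algebra k Γ(X, U) :=
  (Spec.preimage (hU.fromSpec ≫ x)).hom.toAlgebra

/-- The structure map of an affine open is that of its algebra of functions. -/
theorem tA_open (U : X.Opens) (hU : IsAffineOpen U) :
    letI := openAlgebra (x := x) U hU
    hU.fromSpec ≫ x = tA (k := k) Γ(X, U) := by
  exact (Spec.map_preimage _).symm

/-- An affine open as a point. -/
def openPoint (U : X.Opens) (hU : IsAffineOpen U) :
    letI := openAlgebra (x := x) U hU
    SchemeHomOver (tA (k := k) Γ(X, U)) x :=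
  letI := openAlgebra (x := x) U hU
  ⟨hU.fromSpec, tA_open U hU⟩

/-- Natural maps of affine points. -/
structure PointMap (x : X ⟶ Spec (CommRingCat.of k)) (d : D ⟶ Spec (CommRingCat.of k)) :
    Type (u + 1) where
  /-- the map on points -/
  app : ∀ (A : Type u) [CommRing A] [Algebra k A],
    SchemeHomOver (tA (k := k) A) x → SchemeHomOver (tA (k := k) A) d
  natural : ∀ (A B : Type u) [CommRing A] [Algebra k A] [CommRing B] [Algebra k B]
    (f : A →ₐ[k] B) (s : SchemeHomOver (tA (k := k) A) x) (s' : SchemeHomOver (tA (k := k) B) x),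
    s'.1 = (overAlg f).1 ≫ s.1 → (app B s').1 = (overAlg f).1 ≫ (app A s).1

/-- Morphisms over `k` with the same affine points are equal. -/
theorem hom_ext_points {g g' : X ⟶ D} (hg : g ≫ d = x) (hg' : g' ≫ d = x)
    (h : ∀ (A : Type u) [CommRing A] [Algebra k A] (s : SchemeHomOver (tA (k := k) A) x),
      s.1 ≫ g = s.1 ≫ g') : g = g' := by
  have := hg.trans hg'.symm
  refine X.affineCover.hom_ext _ _ fun i => ?_
  let U : X.Opens := (X.affineCover.f i).opensRange
  have hU : IsAffineOpen U := isAffineOpen_opensRange _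
  let := openAlgebra (x := x) U hU
  have e := h Γ(X, U) (openPoint U hU)
  have hr : Set.range (X.affineCover.f i) ⊆ Set.range hU.fromSpec := by
    rw [hU.range_fromSpec]; exact subset_rfl
  rw [← IsOpenImmersion.lift_fac hU.fromSpec (X.affineCover.f i) hr, Category.assoc,
    Category.assoc]
  exact congrArg _ e

namespace PointMap

variable (Φ : PointMap x d)

/-- The morphism on an affine chart of the source. -/
def chartHom (U : X.Opens) (hU : IsAffineOpen U) : Spec Γ(X, U) ⟶ D :=
  letI := openAlgebra (x := x) U hU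
  (Φ.app Γ(X, U) (openPoint U hU)).1

theorem chartHom_over (U : X.Opens) (hU : IsAffineOpen U) :
    Φ.chartHom U hU ≫ d = hU.fromSpec ≫ x :=
  letI := openAlgebra (x := x) U hU
  (Φ.app Γ(X, U) (openPoint U hU)).2.trans (tA_open U hU).symm

/-- The value of a point map at a point factoring through an affine chart. -/
theorem app_eq_of_factor (A : Type u) [CommRing A] [Algebra k A]
    (s : SchemeHomOver (tA (k := k) A) x) (U : X.Opens) (hU : IsAffineOpen U)
    (j : Spec (CommRingCat.of A) ⟶ Spec Γ(X, U)) (hj : j ≫ hU.fromSpec = s.1) :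
    (Φ.app A s).1 = j ≫ Φ.chartHom U hU := by
  let := openAlgebra (x := x) U hU
  obtain ⟨f, hf⟩ := exists_overAlg (⟨j, by rw [← tA_open U hU, ← Category.assoc, hj, s.2]⟩ :
    SchemeHomOver (tA (k := k) A) (tA (k := k) Γ(X, U)))
  change (overAlg f).1 = j at hf
  have e := Φ.natural _ A f (openPoint U hU) s (by rw [hf]; exact hj.symm)
  rw [hf] at e
  exact e

/-- A natural map on affine points is induced by a morphism over `k`. -/
theorem exists_hom : ∃ g : X ⟶ D, g ≫ d = x ∧
    ∀ (A : Type u) [CommRing A] [Algebra k A] (s : SchemeHomOver (tA (k := k) A) x),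
      s.1 ≫ g = (Φ.app A s).1 := by
  let U : X.affineCover.I₀ → X.Opens := fun i => (X.affineCover.f i).opensRange
  have hU : ∀ i, IsAffineOpen (U i) := fun i => isAffineOpen_opensRange _
  have hr : ∀ i, Set.range (X.affineCover.f i) ⊆ Set.range (hU i).fromSpec := fun i => by
    rw [(hU i).range_fromSpec]; exact subset_rfl
  let a : ∀ i, X.affineCover.X i ⟶ D := fun i =>
    IsOpenImmersion.lift (hU i).fromSpec (X.affineCover.f i) (hr i) ≫ Φ.chartHom (U i) (hU i)
  have key : ∀ (i : X.affineCover.I₀) (A : Type u) [CommRing A] [Algebra k A]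
      (s : SchemeHomOver (tA (k := k) A) x) (b : Spec (CommRingCat.of A) ⟶ X.affineCover.X i),
      b ≫ X.affineCover.f i = s.1 → b ≫ a i = (Φ.app A s).1 := by
    intro i A _ _ s b hb
    rw [Φ.app_eq_of_factor A s (U i) (hU i)
      (b ≫ IsOpenImmersion.lift (hU i).fromSpec (X.affineCover.f i) (hr i))
      (by rw [Category.assoc, IsOpenImmersion.lift_fac, hb]), Category.assoc]
  have ha : ∀ i, a i ≫ d = X.affineCover.f i ≫ x := fun i => by
    rw [Category.assoc, chartHom_over, ← Category.assoc, IsOpenImmersion.lift_fac]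
  let g := X.affineCover.glueMorphisms a (fun i i' => by
    refine hom_ext_points (x := pullback.fst (X.affineCover.f i) (X.affineCover.f i') ≫
      X.affineCover.f i ≫ x) (d := d) (by rw [Category.assoc, ha]) ?_ fun A _ _ s => ?_
    · rw [Category.assoc, ha, ← Category.assoc, ← pullback.condition, Category.assoc]
    · let s' : SchemeHomOver (tA (k := k) A) x :=
        ⟨s.1 ≫ pullback.fst _ _ ≫ X.affineCover.f i, by simpa only [Category.assoc] using s.2⟩
      rw [← Category.assoc, ← Category.assoc]
      exact (key i A s' _ (Category.assoc ..)).trans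
        (key i' A s' (s.1 ≫ pullback.snd (X.affineCover.f i) (X.affineCover.f i'))
          ((Category.assoc ..).trans (congrArg (s.1 ≫ ·) pullback.condition.symm))).symm)
  have hg : g ≫ d = x := X.affineCover.hom_ext _ _ fun i => by
    rw [← Category.assoc, Scheme.Cover.ι_glueMorphisms, ha]
  refine ⟨g, hg, fun A _ _ s => ?_⟩
  -- both sides agree on the pieces of the cover pulled back along `s`
  refine Scheme.Cover.hom_ext (X.affineCover.pullback₁ s.1) _ _ fun i => ?_
  change X.affineCover.I₀ at i
  show pullback.fst s.1 (X.affineCover.f i) ≫ s.1 ≫ g =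
    pullback.fst s.1 (X.affineCover.f i) ≫ (Φ.app A s).1
  refine hom_ext_points (x := pullback.fst s.1 (X.affineCover.f i) ≫ tA (k := k) A) (d := d)
    (by rw [Category.assoc, Category.assoc, hg, s.2])
    (by rw [Category.assoc, (Φ.app A s).2]) fun A' _ _ r => ?_
  obtain ⟨f, hf⟩ := exists_overAlg (⟨r.1 ≫ pullback.fst s.1 (X.affineCover.f i),
    (Category.assoc ..).trans r.2⟩ : SchemeHomOver (tA (k := k) A') (tA (k := k) A))
  dsimp only at hf
  let s' : SchemeHomOver (tA (k := k) A') x :=
    ⟨(overAlg f).1 ≫ s.1, by rw [Category.assoc, s.2, (overAlg f).2]⟩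
  have e1 := Φ.natural A A' f s s' rfl
  rw [hf, Category.assoc] at e1
  have e2 := key i A' s' (r.1 ≫ pullback.snd _ _) (by
    show _ = (overAlg f).1 ≫ s.1
    rw [hf, Category.assoc, Category.assoc, pullback.condition])
  show r.1 ≫ pullback.fst s.1 (X.affineCover.f i) ≫ s.1 ≫ g =
    r.1 ≫ pullback.fst s.1 (X.affineCover.f i) ≫ (Φ.app A s).1
  rw [← e1, ← e2, pullback.condition_assoc, Scheme.Cover.ι_glueMorphisms, Category.assoc]

/-- The morphism of a natural map of points. -/
def hom : SchemeHomOver x d := ⟨Φ.exists_hom.choose, Φ.exists_hom.choose_spec.1⟩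

/-- The morphism induces the given map on affine points. -/
theorem comp_hom (A : Type u) [CommRing A] [Algebra k A] (s : SchemeHomOver (tA (k := k) A) x) :
    s.1 ≫ Φ.hom.1 = (Φ.app A s).1 :=
  Φ.exists_hom.choose_spec.2 A s

end PointMap

end FermatAgent.Pic
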