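import Fermat.Agent.Pic.Rep.Sheaf

/-!
# Representability from open charts

A sheaf of classes covered by open charts has a universal family.
-/

set_option autoImplicit false

noncomputable section

universe u

open CategoryTheory CategoryTheory.Limits AlgebraicGeometry NeronModelInfra
  AlgebraicGeometry.RelPicard Opposite

namespace FermatAgent.Pic

variable {R : Type u} [CommRing R] {C : Scheme.{u}} {c : C ⟶ Spec (CommRingCat.of R)}
  {ε : SchemeHomOver (𝟙 (Spec (CommRingCat.of R))) c}

/-- An open chart: a scheme with a family, representing an open subfunctor. -/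
structure OpenChart (Q : SubPicCondition c ε) : Type (u + 1) where
  /-- the scheme -/
  W : Scheme.{u}
  /-- its family -/
  fam : FamilyOn Q W
  /-- the locus of a family -/
  locus : ∀ {T : Scheme.{u}}, FamilyOn Q T → T.Opens
  locus_congr : ∀ {T : Scheme.{u}} {a b : FamilyOn Q T}, a ≈ b → locus a = locus b
  locus_map : ∀ {T T' : Scheme.{u}} (f : T' ⟶ T) (a : FamilyOn Q T),
    locus (a.map f) = f ⁻¹ᵁ locus a
  locus_fam : locus fam = ⊤
  classify : ∀ {T : Scheme.{u}} (a : FamilyOn Q T), locus a = ⊤ →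
    ∃! g : T ⟶ W, fam.map g ≈ a

variable {Q : SubPicCondition c ε} [∀ T : Scheme.{u}, Small.{u} (FamilyClass Q T)]

/-- The map of a chart to the presheaf of classes. -/
def OpenChart.toPresheaf (U : OpenChart Q) : yoneda.obj U.W ⟶ famPresheaf Q :=
  yonedaEquiv.symm (famMk Q U.fam)

theorem yonedaEquiv_symm_app {W T : Scheme.{u}} (a : FamilyOn Q W) (g : T ⟶ W) :
    (yonedaEquiv.symm (famMk Q a) : yoneda.obj W ⟶ famPresheaf Q).app (op T) g =
      famMk Q (a.map g) := by
  rw [← famPresheaf_map_mk]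
  rfl

theorem OpenChart.isOpenImmersion_presheaf (U : OpenChart Q) :
    IsOpenImmersion.presheaf U.toPresheaf := by
  refine MorphismProperty.relative.of_exists fun T g => ?_
  obtain ⟨a, ha⟩ := exists_famMk Q (yonedaEquiv g)
  have hg : g = yonedaEquiv.symm (famMk Q a) := by rw [ha, Equiv.symm_apply_apply]
  subst hg
  let V := U.locus a
  have hV : U.locus (a.map V.ι) = ⊤ := by rw [U.locus_map]; exact V.ι_preimage_self
  obtain ⟨p, hp, -⟩ := U.classify (a.map V.ι) hV
  refine ⟨V.toScheme, yoneda.map p, V.ι, ?_, inferInstance⟩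
  refine IsPullback.of_forall_isPullback_app fun ⟨Z⟩ => ?_
  rw [Types.isPullback_iff]
  refine ⟨?_, ?_, ?_⟩
  · ext q
    show U.toPresheaf.app (op Z) (q ≫ p) =
      (yonedaEquiv.symm (famMk Q a) : yoneda.obj T ⟶ famPresheaf Q).app (op Z) (q ≫ V.ι)
    rw [OpenChart.toPresheaf, yonedaEquiv_symm_app, yonedaEquiv_symm_app, famMk_eq_iff]
    exact Setoid.trans (FamilyOn.map_comp' _ _ _) (Setoid.trans (FamilyOn.map_rel _ hp)
      (Setoid.symm (FamilyOn.map_comp' _ _ _)))
  · rintro q q' ⟨-, h⟩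
    exact (cancel_mono V.ι).mp h
  · intro w (f : Z ⟶ T) h
    rw [OpenChart.toPresheaf, yonedaEquiv_symm_app, yonedaEquiv_symm_app, famMk_eq_iff] at h
    have htop : f ⁻¹ᵁ V = ⊤ := by
      rw [← U.locus_map, ← U.locus_congr h, U.locus_map, U.locus_fam]
      rfl
    have hr : Set.range f ⊆ Set.range V.ι := by
      rw [Scheme.Opens.range_ι]
      rintro _ ⟨z, rfl⟩
      have : z ∈ f ⁻¹ᵁ V := htop ▸ trivial
      exact this
    refine ⟨IsOpenImmersion.lift V.ι f hr, ?_, IsOpenImmersion.lift_fac _ _ _⟩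
    obtain ⟨u, -, huniq⟩ := U.classify (a.map f) (by rw [U.locus_map]; exact htop)
    refine (huniq _ ?_).trans (huniq w h).symm
    refine Setoid.trans (FamilyOn.map_comp' _ _ _) (Setoid.trans (FamilyOn.map_rel _ hp) ?_)
    refine Setoid.trans (Setoid.symm (FamilyOn.map_comp' _ _ _)) ?_
    rw [IsOpenImmersion.lift_fac]

/-- Covering charts give a universal family. -/
theorem exists_universal_of_charts (hs : Presieve.IsSheaf Scheme.zariskiTopology (famPresheaf Q))
    {ι : Type u} (U : ι → OpenChart Q)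
    (hcov : ∀ {T : Scheme.{u}} (a : FamilyOn Q T) (x : T), ∃ i, x ∈ (U i).locus a) :
    ∃ (D : Scheme.{u}) (a : FamilyOn Q D), IsUniversal a := by
  let F : Sheaf Scheme.zariskiTopology.{u} (Type u) :=
    ⟨famPresheaf Q, (isSheaf_iff_isSheaf_of_type _ _).mpr hs⟩
  let f : ∀ i, yoneda.obj (U i).W ⟶ F.1 := fun i => (U i).toPresheaf
  have hf : ∀ i, IsOpenImmersion.presheaf (f i) := fun i => (U i).isOpenImmersion_presheaf
  have : Presheaf.IsLocallySurjective Scheme.zariskiTopology (Sigma.desc f) := by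
    refine ⟨fun {Z} x => ?_⟩
    obtain ⟨b, hb⟩ := exists_famMk Q x
    choose i hi using fun z : Z => hcov b z
    refine GrothendieckTopology.superset_covering _ ?_
      (Scheme.Cover.mem_grothendieckTopology
        (Scheme.openCoverOfIsOpenCover Z (fun z => (U (i z)).locus b)
          (top_unique fun z _ => TopologicalSpace.Opens.mem_iSup.mpr ⟨z, hi z⟩)))
    rintro Y' γ ⟨W, q, g', hg', rfl⟩
    obtain ⟨z⟩ := hg'
    obtain ⟨p, hp, -⟩ := (U (i z)).classify (b.map ((U (i z)).locus b).ι)
      (by rw [(U (i z)).locus_map]; exact Scheme.Opens.ι_preimage_self _)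
    refine ⟨(Sigma.ι (fun i => yoneda.obj (U i).W) (i z)).app (op Y') (q ≫ p), ?_⟩
    show ((Sigma.ι (fun i => yoneda.obj (U i).W) (i z)) ≫ Sigma.desc f).app (op Y') (q ≫ p) = _
    rw [Sigma.ι_desc]
    show (U (i z)).toPresheaf.app (op Y') (q ≫ p) =
      F.1.map (q ≫ ((U (i z)).locus b).ι).op x
    rw [← hb, OpenChart.toPresheaf, yonedaEquiv_symm_app]
    refine Eq.trans ?_ (famPresheaf_map_mk Q _ _).symm
    rw [famMk_eq_iff]
    exact Setoid.trans (FamilyOn.map_comp' _ _ _) (Setoid.trans (FamilyOn.map_rel _ hp)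
      (Setoid.symm (FamilyOn.map_comp' _ _ _)))
  exact ⟨_, exists_universal Q (Scheme.LocalRepresentability.representableBy hf)⟩

end FermatAgent.Pic
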