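import Fermat.Agent.Pic.Rep.Locus
import Fermat.Agent.Pic.Rep.OpenChart
import Fermat.Agent.Pic.Hilb.Smooth

/-!
# The open chart of a constant bundle of degree `g` and `g` constant elements

The universal point of the Hilbert chart gives a smooth open chart of the presheaf of classes of
degree zero, whose locus consists of the good points.
-/

set_option autoImplicit false

noncomputable section

universe u

open CategoryTheory CategoryTheory.Limits AlgebraicGeometry NeronModelInfra
  AlgebraicGeometry.RelPicard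

namespace FermatAgent.Pic

variable {k : Type u} [Field k] [IsAlgClosed k]

namespace ChartData

variable {C : Curve2 k} (D : ChartData C (Bdl.genus C))

/-- The ideal sheaf of the universal divisor. -/
def univNeg : Bdl C (HilbRing C D.B) := (univPoint D.B).exists_bdl.choose

theorem univNeg_spec : D.univNeg.IsNegDiv (univPoint D.B).I :=
  (univPoint D.B).exists_bdl.choose_spec

/-- The universal bundle of the chart. -/
def univBdl : Bdl C (HilbRing C D.B) :=
  D.univNeg.dual.tensor (D.E0.map (Algebra.ofId k _)).dual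

variable {A : Type u} [CommRing A] [Algebra k A] {e : C.R1 →ₐ[k] k}

theorem univNeg_map {N : Bdl C A} {Q : HilbPoint C D.B A} (hN : N.IsNegDiv Q.I)
    (f : HilbRing C D.B →ₐ[k] A) (hf : (univPoint D.B).map f = Q) :
    D.univNeg.map f ≈ N := by
  obtain ⟨E, hE, hE'⟩ := (univPoint D.B).exists_isNegDiv_map f
  rw [hf] at hE'
  obtain ⟨i⟩ := D.univNeg_spec.iso hE
  obtain ⟨j⟩ := hE'.iso hN
  exact ⟨(i.map f).trans j⟩

theorem univBdl_map (f : HilbRing C D.B →ₐ[k] A) :
    D.univBdl.map f ≈ (D.univNeg.map f).dual.tensor (D.E0.map (Algebra.ofId k A)).dual := by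
  refine Setoid.trans (Bdl.map_tensor f _ _) (Bdl.tensor_congr (Bdl.map_dual f _) ?_)
  refine Setoid.trans (Bdl.map_dual f _)
    (Bdl.dual_congr (Setoid.trans (Bdl.map_map _ _ _) ?_))
  rw [show f.comp (Algebra.ofId k (HilbRing C D.B)) = Algebra.ofId k A from Subsingleton.elim _ _]

theorem univBdl_rigid (he : e C.y = 0) :
    D.univBdl.IsRigid (C.cst (HilbRing C D.B) e) :=
  (D.univNeg_spec.isRigid ⟨e, he⟩).dual.tensor (Bdl.IsRigid.map_cst e).dual

theorem univBdl_deg (he : e C.y = 0) : D.univBdl.HasDeg 0 := by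
  have h := Bdl.hasDeg_tensor (Bdl.hasDeg_dual (Bdl.hasDeg_isNegDiv he _ _ D.univNeg_spec))
    (Bdl.hasDeg_dual (Bdl.hasDeg_map (Algebra.ofId k (HilbRing C D.B)) D.deg))
  unfold univBdl
  simpa using h

end ChartData

namespace Bridge

variable {C : Scheme.{u}} {c : C ⟶ Spec (CommRingCat.of k)}
  {ε : SchemeHomOver (𝟙 (Spec (CommRingCat.of k))) c} {P : Pres c ε} {B : Bridge P}
  (D : ChartData P.X (Bdl.genus P.X)) {T : Scheme.{u}}

/-- The universal family of a chart. -/
theorem exists_univFam : ∃ (F : FamilyOn B.degCut (Spec (CommRingCat.of (HilbRing P.X D.B))))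
    (_ : F.t = tA (k := k) (HilbRing P.X D.B)),
    ∀ (A : Type u) [CommRing A] [Algebra k A] (f : HilbRing P.X D.B →ₐ[k] A)
      (s : SchemeHomOver (tA (k := k) A) F.t), s.1 = (overAlg f).1 →
        ptBdl F s ≈ D.univBdl.map f := by
  obtain ⟨M, hM⟩ := B.exists_bdl D.univBdl (D.univBdl_rigid P.e_y)
  refine ⟨⟨_, M, (B.degCut_iff M).mpr (Bdl.hasDeg_congr (Setoid.symm hM) (D.univBdl_deg P.e_y))⟩,
    rfl,
    fun A _ _ f s hs => ?_⟩
  exact Setoid.trans (B.bdl_congr (sameClass_pullbackAlong_congr _ (ψ := overAlg f) hs))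
    (Setoid.trans (B.bdl_pullback f M) (Bdl.map_congr f hM))

/-- The bundle of a good point is that of its point of the chart. -/
theorem exists_classify_point {A : Type u} [CommRing A] [Algebra k A] {X : Bdl P.X A}
    (hX : D.IsGood X) :
    ∃ f : HilbRing P.X D.B →ₐ[k] A, D.univBdl.map f ≈ X := by
  obtain ⟨-, Q, N, hN, hNX⟩ := hX
  refine ⟨Q.classify, Setoid.trans (D.univBdl_map _) (Setoid.symm ?_)⟩
  exact ChartData.eq_of_neg (Setoid.trans (D.univNeg_map hN _ Q.univ_map_classify) hNX)

/-- Two points of the chart with the same good bundle are equal. -/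
theorem classify_unique {A : Type u} [CommRing A] [Algebra k A] {X : Bdl P.X A}
    (hr : X.IsRigid (P.X.cst A P.e)) (hd : X.HasDeg 0) (hX : D.IsGood X)
    {f f' : HilbRing P.X D.B →ₐ[k] A} (h : D.univBdl.map f ≈ X) (h' : D.univBdl.map f' ≈ X) :
    f = f' := by
  obtain ⟨E, hE, hE'⟩ := (univPoint D.B).exists_isNegDiv_map f
  obtain ⟨F, hF, hF'⟩ := (univPoint D.B).exists_isNegDiv_map f'
  refine hilbHom_ext (ChartData.IsGood.point_unique (D := D) P.e_y hr hd hX.1
    hE' hF' ?_ ?_)
  · exact Setoid.trans (Setoid.symm (D.univNeg_map hE' f rfl))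
      (ChartData.neg_of_eq (Setoid.trans (Setoid.symm h) (D.univBdl_map f)))
  · exact Setoid.trans (Setoid.symm (D.univNeg_map hF' f' rfl))
      (ChartData.neg_of_eq (Setoid.trans (Setoid.symm h') (D.univBdl_map f')))

variable {F : FamilyOn B.degCut (Spec (CommRingCat.of (HilbRing P.X D.B)))}
  (hF : F.t = tA (k := k) (HilbRing P.X D.B))
  (hpt : ∀ (A : Type u) [CommRing A] [Algebra k A] (f : HilbRing P.X D.B →ₐ[k] A)
    (s : SchemeHomOver (tA (k := k) A) F.t), s.1 = (overAlg f).1 →
      ptBdl F s ≈ D.univBdl.map f)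

include hF hpt in
/-- **Families in the locus are classified.** -/
theorem existsUnique_classify (a : FamilyOn B.degCut T)
    (ha : ∀ x : T, x ∈ goodPoints D a) :
    ∃! g : T ⟶ Spec (CommRingCat.of (HilbRing P.X D.B)), F.map g ≈ a := by
  have hgood : ∀ (A : Type u) [CommRing A] [Algebra k A] (s : SchemeHomOver (tA (k := k) A) a.t),
      D.IsGood (ptBdl a s) := fun A _ _ s =>
    (isGood_iff_range_subset a s).mpr fun x _ => ha x
  let φ := fun (A : Type u) (i : CommRing A) (i' : Algebra k A)
      (s : SchemeHomOver (tA (k := k) A) a.t) => (exists_classify_point D (hgood A s)).choose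
  have hφ : ∀ (A : Type u) (i : CommRing A) (i' : Algebra k A)
      (s : SchemeHomOver (tA (k := k) A) a.t), D.univBdl.map (φ A i i' s) ≈ ptBdl a s :=
    fun A i i' s => (exists_classify_point D (hgood A s)).choose_spec
  let Φ : PointMap a.t (tA (k := k) (HilbRing P.X D.B)) :=
    { app := fun A i i' s => overAlg (φ A i i' s)
      natural := fun A A' _ _ _ _ f s s' h => by
        have e : φ A' _ _ s' = f.comp (φ A _ _ s) :=
          classify_unique D (ptBdl_rigid s') (ptBdl_deg s') (hgood A' s') (hφ A' _ _ s')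
            (Setoid.trans (Setoid.symm (Bdl.map_map (φ A _ _ s) f D.univBdl))
              (Setoid.trans (Bdl.map_congr f (hφ A _ _ s)) (Setoid.symm (ptBdl_comp f s s' h))))
        show (overAlg (φ A' _ _ s')).1 = _
        rw [e]
        show Spec.map (CommRingCat.ofHom (f.toRingHom.comp (φ A _ _ s).toRingHom)) = _
        rw [CommRingCat.ofHom_comp, Spec.map_comp]
        rfl }
  have hgt : Φ.hom.1 ≫ F.t = a.t := by rw [hF]; exact Φ.hom.2
  refine ⟨Φ.hom.1, ?_, fun g' hg' => ?_⟩
  · refine Setoid.symm (rel_of_points (b := F.map Φ.hom.1) hgt fun A _ _ s => ?_)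
    refine Setoid.trans (ptBdl_map Φ.hom.1 F _
      ⟨s.1 ≫ Φ.hom.1, by rw [Category.assoc, hgt, s.2]⟩ rfl) ?_
    exact Setoid.trans (hpt A (φ A _ _ s) _ (Φ.comp_hom A s)) (hφ A _ _ s)
  · have ht : g' ≫ F.t = a.t := ((Category.id_comp _).symm.trans hg'.choose).symm
    refine hom_ext_points (d := tA (k := k) (HilbRing P.X D.B)) (hF ▸ ht) Φ.hom.2
      fun A _ _ s => ?_
    obtain ⟨f, hf⟩ := exists_overAlg (⟨s.1 ≫ g', by rw [Category.assoc, ← hF, ht, s.2]⟩ :
      SchemeHomOver (tA (k := k) A) (tA (k := k) (HilbRing P.X D.B)))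
    rw [Φ.comp_hom A s]
    refine hf.symm.trans ?_
    show _ = (overAlg (φ A _ _ s)).1
    have hs' : s.1 ≫ (F.map g').t = tA (k := k) A := by
      show s.1 ≫ g' ≫ F.t = _
      rw [ht, s.2]
    have e1 : ptBdl a s ≈ ptBdl (F.map g') ⟨s.1, hs'⟩ :=
      ptBdl_congr (Setoid.symm hg') s _ rfl
    have e2 := Setoid.trans e1 (ptBdl_map g' F _
      ⟨s.1 ≫ g', by rw [Category.assoc, ht, s.2]⟩ rfl)
    rw [classify_unique D (ptBdl_rigid s) (ptBdl_deg s) (hgood A s)
      (Setoid.symm (Setoid.trans e2 (hpt A f _ hf.symm))) (hφ A _ _ s)]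

omit hF hpt

/-- **The open chart**: for chart data there is a smooth open chart of the classes of degree zero
whose locus in every family is the set of good points. -/
theorem exists_openChart : ∃ U : OpenChart B.degCut,
    Smooth U.fam.t ∧ ∀ {T : Scheme.{u}} (a : FamilyOn B.degCut T),
      U.locus a = chartLocus D a := by
  obtain ⟨F, hF, hpt⟩ := exists_univFam (B := B) D
  let W := chartLocus D F
  have hcong : ∀ {T : Scheme.{u}} {a b : FamilyOn B.degCut T}, a ≈ b →
      chartLocus D a = chartLocus D b := fun h =>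
    TopologicalSpace.Opens.ext (goodPoints_congr h)
  have hmap : ∀ {T T' : Scheme.{u}} (f : T' ⟶ T) (a : FamilyOn B.degCut T),
      chartLocus D (a.map f) = f ⁻¹ᵁ chartLocus D a := fun f a =>
    TopologicalSpace.Opens.ext (goodPoints_map f a)
  refine ⟨{ W := W.toScheme
            fam := F.map W.ι
            locus := fun a => chartLocus D a
            locus_congr := hcong
            locus_map := hmap
            locus_fam := by rw [hmap]; exact W.ι_preimage_self
            classify := fun {T} a ha => ?_ }, ?_, fun a => rfl⟩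
  · obtain ⟨g₀, hg₀, hu⟩ := existsUnique_classify D hF hpt a
      fun x => show x ∈ chartLocus D a from ha ▸ trivial
    have hr : Set.range g₀ ⊆ Set.range W.ι := by
      rw [Scheme.Opens.range_ι]
      rintro _ ⟨x, rfl⟩
      have hx : x ∈ chartLocus D (F.map g₀) := by rw [hcong hg₀, ha]; trivial
      rw [hmap] at hx
      exact hx
    refine ⟨IsOpenImmersion.lift W.ι g₀ hr, ?_, fun q hq => ?_⟩
    · refine Setoid.trans (Setoid.symm (FamilyOn.map_comp' _ _ F)) ?_
      rw [IsOpenImmersion.lift_fac]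
      exact hg₀
    · rw [← cancel_mono W.ι, IsOpenImmersion.lift_fac]
      exact hu _ (Setoid.trans (FamilyOn.map_comp' _ _ F) hq)
  · have : Smooth (tA (k := k) (HilbRing P.X D.B)) := by
      have := hilbRing_smooth (C := P.X) (B := D.B)
      rw [HasRingHomProperty.Spec_iff (P := @Smooth)]
      exact RingHom.smooth_algebraMap.mpr inferInstance
    show Smooth (W.ι ≫ F.t)
    rw [hF]
    infer_instance

end Bridge

end FermatAgent.Pic
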