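import Mathlib

/-!
# Properness and geometric connectedness from a surjection

A separated scheme of finite type surjected by a proper one is proper, and one surjected by a
geometrically connected one is geometrically connected.
-/

set_option autoImplicit false

noncomputable section

universe u

open CategoryTheory CategoryTheory.Limits AlgebraicGeometry

namespace FermatAgent.Pic

variable {Y D S : Scheme.{u}} (g : Y ⟶ D) [Surjective g] (f : D ⟶ S)

/-- A separated morphism of finite type surjected by a proper one is proper. -/
theorem isProper_of_surjective [IsProper (g ≫ f)] [IsSeparated f] [LocallyOfFiniteType f] :
    IsProper f := by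
  have : UniversallyClosed f := UniversallyClosed.of_comp_surjective g f
  exact ⟨⟩

/-- The image of a geometrically connected scheme is geometrically connected. -/
theorem geometricallyConnected_of_surjective [GeometricallyConnected (g ≫ f)] :
    GeometricallyConnected f := by
  refine ⟨fun K _ y Z fst snd h => ?_⟩
  have hY : ConnectedSpace (pullback g fst : Scheme.{u}) :=
    GeometricallyConnected.geometrically_connectedSpace (f := g ≫ f) y
      (pullback.fst g fst) (pullback.snd g fst ≫ snd)
      ((IsPullback.of_hasPullback g fst).flip.paste_horiz h.flip).flip
  have hs : Function.Surjective (pullback.snd g fst) :=
    (inferInstance : Surjective (pullback.snd g fst)).1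
  exact hs.connectedSpace (Scheme.Hom.continuous _)

end FermatAgent.Pic
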