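import Fermat.Agent.Pic.Rep.Classes
import Fermat.Agent.Pic.Rep.OfPoints
import Fermat.Agent.Pic.Rigid

/-!
# Rigidified classes over affine bases as rigid bundles

Through the dictionary rigidified classes over `A` are the same as isomorphism classes of rigid
bundles, compatibly with base change.
-/

set_option autoImplicit false

noncomputable section

universe u

open CategoryTheory CategoryTheory.Limits AlgebraicGeometry NeronModelInfra
  AlgebraicGeometry.RelPicard

namespace FermatAgent.Pic

variable {k : Type u} [Field k] {C : Scheme.{u}} {c : C ⟶ Spec (CommRingCat.of k)}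
  {ε : SchemeHomOver (𝟙 (Spec (CommRingCat.of k))) c} {P : Pres c ε} (B : Bridge P)
  {A A' : Type u} [CommRing A] [Algebra k A] [CommRing A'] [Algebra k A']

/-- The rigid bundle of a rigidified line bundle. -/
def Bridge.bdl (M : RigidifiedLineBundle c ε (tA (k := k) A)) : Bdl P.X A :=
  B.toBdl A M.L M.isInvertible

namespace Bridge

/-- The bundle of a rigidified module is rigid. -/
theorem bdl_rigid (M : RigidifiedLineBundle c ε (tA (k := k) A)) :
    (B.bdl M).IsRigid (P.X.cst A P.e) :=
  (B.rigid A M.L M.isInvertible).mpr M.rigidified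

/-- Rigidified modules have isomorphic bundles exactly when they have the same class. -/
theorem bdl_iso_iff (M M' : RigidifiedLineBundle c ε (tA (k := k) A)) :
    Nonempty (Bdl.Iso (B.bdl M) (B.bdl M')) ↔ SameClass M M' :=
  B.iso_iff A M.L M'.L M.isInvertible M'.isInvertible

/-- Bundles of modules with the same class are isomorphic. -/
theorem bdl_congr {M M' : RigidifiedLineBundle c ε (tA (k := k) A)} (h : SameClass M M') :
    B.bdl M ≈ B.bdl M' :=
  (B.bdl_iso_iff M M').mpr h

/-- Every rigid bundle comes from a rigidified module. -/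
theorem exists_bdl (E : Bdl P.X A) (hE : E.IsRigid (P.X.cst A P.e)) :
    ∃ M : RigidifiedLineBundle c ε (tA (k := k) A), B.bdl M ≈ E := by
  obtain ⟨M, hM, ⟨i⟩⟩ := B.surj A E
  obtain ⟨j⟩ := Setoid.symm (show B.toBdl A M hM ≈ E from ⟨i⟩)
  exact ⟨⟨M, hM, (B.rigid A M hM).mp (hE.of_iso j)⟩, ⟨i⟩⟩

/-- The trivial rigidified module has the trivial bundle. -/
theorem bdl_unit : B.bdl (RigidifiedLineBundle.unit (c := c) (ε := ε) (tA (k := k) A)) ≈
    Bdl.one P.X A := B.unit A

/-- The bundle of a pullback is the base change of the bundle. -/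
theorem bdl_pullback (f : A →ₐ[k] A') (M : RigidifiedLineBundle c ε (tA (k := k) A)) :
    B.bdl (M.pullbackAlong (overAlg f)) ≈ (B.bdl M).map f :=
  B.pullback_map A A' f M.L M.isInvertible

end Bridge

end FermatAgent.Pic
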