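import Fermat.Agent.Pic.Pres
import Fermat.Prelude.Def_AlgebraicGeometry_RepresentsRelSubPic

/-!
# The presheaf of rigidified classes satisfying a condition

For a condition `Q` on rigidified line bundles, the presheaf on all schemes of pairs of a structure
map and a class satisfying `Q`.
-/

set_option autoImplicit false

noncomputable section

universe u

open CategoryTheory CategoryTheory.Limits AlgebraicGeometry NeronModelInfra
  AlgebraicGeometry.RelPicard Opposite

namespace FermatAgent.Pic

variable {R : Type u} [CommRing R] {C : Scheme.{u}} {c : C ⟶ Spec (CommRingCat.of R)}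
  {ε : SchemeHomOver (𝟙 (Spec (CommRingCat.of R))) c}

/-- The isomorphism relation of rigidified bundles over the same base. -/
abbrev SameClass {T : Scheme.{u}} {t : T ⟶ Spec (CommRingCat.of R)}
    (M M' : RigidifiedLineBundle c ε t) : Prop := Nonempty (M.L ≅ M'.L)

/-- Pulling back along the identity preserves the class. -/
theorem sameClass_pullbackAlong_id {T : Scheme.{u}} {t : T ⟶ Spec (CommRingCat.of R)}
    (M : RigidifiedLineBundle c ε t) (h : 𝟙 T ≫ t = t) :
    SameClass (M.pullbackAlong ⟨𝟙 T, h⟩) M :=
  ⟨(Scheme.Modules.pullbackCongr (baseChangeSnd_id c t)).app M.L ≪≫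
    (Scheme.Modules.pullbackId (pullback c t)).app M.L⟩

/-- Pulling back twice is pulling back along the composite. -/
theorem sameClass_pullbackAlong_comp {T T' T'' : Scheme.{u}} {t : T ⟶ Spec (CommRingCat.of R)}
    {t' : T' ⟶ Spec (CommRingCat.of R)} {t'' : T'' ⟶ Spec (CommRingCat.of R)}
    (M : RigidifiedLineBundle c ε t) (φ : SchemeHomOver t' t) (ψ : SchemeHomOver t'' t') :
    SameClass ((M.pullbackAlong φ).pullbackAlong ψ) (M.pullbackAlong (postComp φ ψ)) :=
  ⟨(Scheme.Modules.pullbackComp _ _).app M.L ≪≫
    (Scheme.Modules.pullbackCongr (baseChangeSnd_comp c φ ψ)).app M.L⟩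

/-- Pullbacks along equal maps have the same class. -/
theorem sameClass_pullbackAlong_congr {T T' : Scheme.{u}} {t : T ⟶ Spec (CommRingCat.of R)}
    {t' : T' ⟶ Spec (CommRingCat.of R)} (M : RigidifiedLineBundle c ε t)
    {φ ψ : SchemeHomOver t' t} (h : φ.1 = ψ.1) :
    SameClass (M.pullbackAlong φ) (M.pullbackAlong ψ) := by
  obtain rfl : φ = ψ := Subtype.ext h
  exact ⟨Iso.refl _⟩

namespace SameClass

variable {T : Scheme.{u}} {t : T ⟶ Spec (CommRingCat.of R)} {M M' M'' : RigidifiedLineBundle c ε t}

/-- Having the same class is reflexive. -/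
theorem refl (M : RigidifiedLineBundle c ε t) : SameClass M M := ⟨Iso.refl _⟩

/-- Having the same class is symmetric. -/
theorem symm (h : SameClass M M') : SameClass M' M := ⟨h.some.symm⟩

/-- Having the same class is transitive. -/
theorem trans (h : SameClass M M') (h' : SameClass M' M'') : SameClass M M'' :=
  ⟨h.some ≪≫ h'.some⟩

/-- Pullback respects classes. -/
theorem pullback {T' : Scheme.{u}} {t' : T' ⟶ Spec (CommRingCat.of R)}
    (h : SameClass M M') (ψ : SchemeHomOver t' t) :
    SameClass (M.pullbackAlong ψ) (M'.pullbackAlong ψ) :=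
  RigidifiedLineBundle.pullbackAlong_congr ψ h

end SameClass

variable (Q : SubPicCondition c ε)

/-- A structure map with a rigidified bundle satisfying the condition. -/
structure FamilyOn (T : Scheme.{u}) : Type (u + 1) where
  /-- the structure map -/
  t : T ⟶ Spec (CommRingCat.of R)
  /-- the bundle -/
  M : RigidifiedLineBundle c ε t
  mem : Q.P t M

namespace FamilyOn

variable {Q} {T : Scheme.{u}}

/-- The bundle moved to an equal structure map. -/
def cast (a : FamilyOn Q T) {t : T ⟶ Spec (CommRingCat.of R)} (h : 𝟙 T ≫ a.t = t) :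
    RigidifiedLineBundle c ε t :=
  a.M.pullbackAlong ⟨𝟙 T, h⟩

/-- Equal structure maps and isomorphic bundles. -/
def Rel (a b : FamilyOn Q T) : Prop :=
  ∃ h : 𝟙 T ≫ b.t = a.t, SameClass (b.cast h) a.M

/-- Equivalence of families is an equivalence relation. -/
instance setoid : Setoid (FamilyOn Q T) where
  r := Rel
  iseqv := by
    refine ⟨fun a => ⟨Category.id_comp _, sameClass_pullbackAlong_id _ _⟩, ?_, ?_⟩
    · rintro a b ⟨h, e⟩
      refine ⟨by rw [Category.id_comp, ← h, Category.id_comp], ?_⟩
      refine (e.symm.pullback _).trans ?_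
      refine (sameClass_pullbackAlong_comp _ _ _).trans ?_
      exact (sameClass_pullbackAlong_congr _ (ψ := ⟨𝟙 T, Category.id_comp _⟩)
        (Category.id_comp _)).trans (sameClass_pullbackAlong_id _ _)
    · rintro a b d ⟨h, e⟩ ⟨h', e'⟩
      refine ⟨by rw [h', ← h, Category.id_comp], ?_⟩
      refine SameClass.trans ?_ e
      refine SameClass.trans ?_ (e'.pullback _)
      exact ((sameClass_pullbackAlong_comp _ _ _).trans
        (sameClass_pullbackAlong_congr _ (Category.id_comp _))).symm

/-- Pullback of a family. -/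
def map {T' : Scheme.{u}} (f : T' ⟶ T) (a : FamilyOn Q T) : FamilyOn Q T' where
  t := f ≫ a.t
  M := a.M.pullbackAlong ⟨f, rfl⟩
  mem := Q.pullback_mem _ _ _ _ a.mem

/-- Pullback respects equivalence of families. -/
theorem map_rel {T' : Scheme.{u}} (f : T' ⟶ T) {a b : FamilyOn Q T} (h : a ≈ b) :
    map f a ≈ map f b := by
  obtain ⟨h, e⟩ := h
  refine ⟨?_, ?_⟩
  · show 𝟙 T' ≫ f ≫ b.t = f ≫ a.t
    rw [Category.id_comp, ← h, Category.id_comp]
  refine SameClass.trans ?_ (e.pullback _)
  refine (sameClass_pullbackAlong_comp _ _ _).trans ?_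
  refine SameClass.trans ?_ (sameClass_pullbackAlong_comp _ _ _).symm
  exact sameClass_pullbackAlong_congr _ ((Category.id_comp f).trans (Category.comp_id f).symm)

/-- Pullback along the identity is equivalent to the family. -/
theorem map_id' (a : FamilyOn Q T) : map (𝟙 T) a ≈ a := by
  refine ⟨rfl, ?_⟩
  exact SameClass.refl _

/-- Pullback is functorial up to equivalence. -/
theorem map_comp' {T' T'' : Scheme.{u}} (g : T'' ⟶ T') (f : T' ⟶ T) (a : FamilyOn Q T) :
    map (g ≫ f) a ≈ map g (map f a) := by
  refine ⟨by simp [map], ?_⟩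
  refine (sameClass_pullbackAlong_comp _ _ _).trans ((sameClass_pullbackAlong_comp _ _ _).trans ?_)
  exact sameClass_pullbackAlong_congr _ (by simp [postComp])

end FamilyOn

/-- Classes of families over `T`. -/
abbrev FamilyClass (T : Scheme.{u}) : Type (u + 1) := Quotient (FamilyOn.setoid (Q := Q) (T := T))

variable [∀ T : Scheme.{u}, Small.{u} (FamilyClass Q T)]

/-- The presheaf of classes of families. -/
def famPresheaf : Scheme.{u}ᵒᵖ ⥤ Type u where
  obj T := Shrink.{u} (FamilyClass Q T.unop)
  map {T T'} f := TypeCat.ofHom fun x =>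
    equivShrink _ (Quotient.map (FamilyOn.map f.unop) (fun _ _ h => FamilyOn.map_rel f.unop h)
      ((equivShrink _).symm x))
  map_id T := TypeCat.homEquiv.injective (funext fun x => by
    obtain ⟨y, rfl⟩ := (equivShrink _).surjective x
    induction y using Quotient.ind with
    | _ a => simpa using Quotient.sound (FamilyOn.map_id' a))
  map_comp {T T' T''} f g := TypeCat.homEquiv.injective (funext fun x => by
    obtain ⟨y, rfl⟩ := (equivShrink _).surjective x
    induction y using Quotient.ind with
    | _ a => simpa using Quotient.sound (FamilyOn.map_comp' g.unop f.unop a))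

/-- The element of a family. -/
def famMk {T : Scheme.{u}} (a : FamilyOn Q T) : (famPresheaf Q).obj (op T) :=
  equivShrink _ (Quotient.mk _ a)

/-- The presheaf map sends a family to its pullback. -/
theorem famPresheaf_map_mk {T T' : Scheme.{u}} (f : T' ⟶ T) (a : FamilyOn Q T) :
    (famPresheaf Q).map f.op (famMk Q a) = famMk Q (a.map f) := by
  show equivShrink _ (Quotient.map _ _ ((equivShrink _).symm (equivShrink _ (Quotient.mk _ a)))) = _
  rw [Equiv.symm_apply_apply]
  rfl

/-- Two families give the same element iff they are equivalent. -/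
theorem famMk_eq_iff {T : Scheme.{u}} (a b : FamilyOn Q T) :
    famMk Q a = famMk Q b ↔ a ≈ b :=
  (equivShrink _).injective.eq_iff.trans Quotient.eq

/-- Every element comes from a family. -/
theorem exists_famMk {T : Scheme.{u}} (x : (famPresheaf Q).obj (op T)) :
    ∃ a : FamilyOn Q T, famMk Q a = x := by
  obtain ⟨y, rfl⟩ := (equivShrink _).surjective x
  induction y using Quotient.ind with
  | _ a => exact ⟨a, rfl⟩

/-- A family universal among families satisfying a condition. -/
def IsUniversal {Q : SubPicCondition c ε} {D : Scheme.{u}} (a : FamilyOn Q D) : Prop :=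
  ∀ {T : Scheme.{u}} (t : T ⟶ Spec (CommRingCat.of R)) (M : RigidifiedLineBundle c ε t), Q.P t M →
    ∃! g : SchemeHomOver t a.t, SameClass (a.M.pullbackAlong g) M

/-- A representation of the presheaf gives a universal bundle. -/
theorem exists_universal {D : Scheme.{u}} (r : (famPresheaf Q).RepresentableBy D) :
    ∃ a : FamilyOn Q D, IsUniversal a := by
  obtain ⟨a, ha⟩ := exists_famMk Q (r.homEquiv (𝟙 D))
  refine ⟨a, fun {T} t M hM => ?_⟩
  have hr : ∀ g : T ⟶ D, r.homEquiv g = famMk Q (a.map g) := fun g => by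
    rw [← famPresheaf_map_mk, ha, ← r.homEquiv_comp, Category.comp_id]
  let g : T ⟶ D := r.homEquiv.symm (famMk Q ⟨t, M, hM⟩)
  have hg : famMk Q (a.map g) = famMk Q ⟨t, M, hM⟩ := by
    rw [← hr]; exact r.homEquiv.apply_symm_apply _
  obtain ⟨h, e⟩ := (famMk_eq_iff Q _ _).mp hg
  have ht : g ≫ a.t = t := by
    have : 𝟙 T ≫ t = g ≫ a.t := h
    rw [← this, Category.id_comp]
  refine ⟨⟨g, ht⟩, ?_, fun g' hg' => ?_⟩
  · obtain ⟨h', e'⟩ := Setoid.symm ((famMk_eq_iff Q _ _).mp hg)
    refine SameClass.trans ?_ e'
    exact ((sameClass_pullbackAlong_comp _ _ _).trans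
      (sameClass_pullbackAlong_congr _ (Category.id_comp _))).symm
  · refine Subtype.ext (r.homEquiv.injective ?_)
    rw [hr, hr, hg]
    refine ((famMk_eq_iff Q _ _).mpr ?_).symm
    refine ⟨?_, ?_⟩
    · show 𝟙 T ≫ g'.1 ≫ a.t = t
      rw [Category.id_comp]; exact g'.2
    · refine SameClass.trans ?_ hg'
      exact (sameClass_pullbackAlong_comp _ _ _).trans
        (sameClass_pullbackAlong_congr _ (Category.id_comp _))

end FermatAgent.Pic
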