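import Fermat.Agent.Pic.Rep.Affine
import Fermat.Agent.Pic.Rep.Sheaf
import Fermat.Agent.Pic.Coh.Laws

/-!
# The condition of degree zero

A family has degree zero if all its affine points do; this condition is local on the base.
-/

set_option autoImplicit false

noncomputable section

universe u

open CategoryTheory CategoryTheory.Limits AlgebraicGeometry NeronModelInfra
  AlgebraicGeometry.RelPicard

namespace FermatAgent.Pic

variable {k : Type u} [Field k] {C : Scheme.{u}} {c : C ⟶ Spec (CommRingCat.of k)}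
  {ε : SchemeHomOver (𝟙 (Spec (CommRingCat.of k))) c} {P : Pres c ε}

namespace Bridge

variable (B : Bridge P)

/-- Degree zero at every affine point. -/
def degCut : SubPicCondition c ε where
  P t M := ∀ (A : Type u) [CommRing A] [Algebra k A] (s : SchemeHomOver (tA (k := k) A) t),
    (B.bdl (M.pullbackAlong s)).HasDeg 0
  unit_mem _ A _ _ _ := Bdl.hasDeg_congr (Setoid.symm (Setoid.trans
    (B.bdl_congr (M' := RigidifiedLineBundle.unit (tA (k := k) A))
      ⟨Scheme.Modules.pullbackUnitIso _⟩) B.bdl_unit)) Bdl.hasDeg_one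
  congr _ _ _ h hM A _ _ s := Bdl.hasDeg_congr (B.bdl_congr (SameClass.pullback h s)) (hM A s)
  pullback_mem _ _ ψ M hM A _ _ s :=
    Bdl.hasDeg_congr (B.bdl_congr (sameClass_pullbackAlong_comp M ψ s).symm) (hM A (postComp ψ s))

/-- Over an affine base the condition is that the bundle has degree zero. -/
theorem degCut_iff {A : Type u} [CommRing A] [Algebra k A]
    (M : RigidifiedLineBundle c ε (tA (k := k) A)) :
    B.degCut.P _ M ↔ (B.bdl M).HasDeg 0 := by
  constructor
  · intro h
    exact Bdl.hasDeg_congr (B.bdl_congr (sameClass_pullbackAlong_id M (Category.id_comp _)))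
      (h A ⟨𝟙 _, Category.id_comp _⟩)
  · intro h A' _ _ s
    obtain ⟨f, hf⟩ := exists_overAlg s
    exact Bdl.hasDeg_congr (Setoid.trans (Setoid.symm (B.bdl_pullback f M))
      (B.bdl_congr (sameClass_pullbackAlong_congr M hf))) (Bdl.hasDeg_map f h)

/-- A field-valued point factors through some piece of a cover. -/
theorem exists_factor_of_field {T : Scheme.{u}} (𝒰 : Scheme.OpenCover.{u + 1} T) (K : Type u)
    [Field K] (s : Spec (CommRingCat.of K) ⟶ T) :
    ∃ (i : 𝒰.I₀) (s' : Spec (CommRingCat.of K) ⟶ 𝒰.X i), s' ≫ 𝒰.f i = s := by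
  let x := s (IsLocalRing.closedPoint K)
  obtain ⟨i, y, hy⟩ := 𝒰.exists_eq x
  have hr : Set.range s ⊆ Set.range (𝒰.f i) := by
    rintro _ ⟨z, rfl⟩
    exact ⟨y, hy.trans (congrArg _ (Subsingleton.elim _ _))⟩
  exact ⟨i, IsOpenImmersion.lift (𝒰.f i) s hr, IsOpenImmersion.lift_fac _ _ _⟩

/-- The condition of degree zero is local on the base. -/
theorem isLocalCondition_degCut : IsLocalCondition B.degCut := by
  intro T t 𝒰 M h A _ _ s K _ _ _ f
  obtain ⟨i, s', hs'⟩ := exists_factor_of_field 𝒰 K ((overAlg f).1 ≫ s.1)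
  let σ : SchemeHomOver (tA (k := k) K) (𝒰.f i ≫ t) := ⟨s', by
    rw [← Category.assoc, hs', Category.assoc, s.2, (overAlg f).2]⟩
  have hK := Bdl.hasDeg_congr (E' := (B.bdl (M.pullbackAlong s)).map f) ?_ (h i K σ)
  · exact (Bdl.deg_congr (Bdl.map_id _)).symm.trans (hK K (AlgHom.id k K))
  · refine Setoid.trans (B.bdl_congr ((sameClass_pullbackAlong_comp M _ σ).trans ?_))
      (B.bdl_pullback f (M.pullbackAlong s))
    exact (sameClass_pullbackAlong_congr M (ψ := postComp s (overAlg f)) hs').trans
      (sameClass_pullbackAlong_comp M s (overAlg f)).symm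

end Bridge

end FermatAgent.Pic
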