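import Fermat.Agent.Pic.Rep.Points
import Fermat.Agent.Pic.ChartFibres

/-!
# The locus of a chart in a family

The points at which a family is good for a chart form an open set, and an affine point is good
exactly when it lies in that set.
-/

set_option autoImplicit false

noncomputable section

universe u

open CategoryTheory CategoryTheory.Limits AlgebraicGeometry NeronModelInfra
  AlgebraicGeometry.RelPicard

namespace FermatAgent.Pic

variable {k : Type u} [Field k] [IsAlgClosed k] {C : Scheme.{u}}
  {c : C ⟶ Spec (CommRingCat.of k)} {ε : SchemeHomOver (𝟙 (Spec (CommRingCat.of k))) c}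
  {P : Pres c ε} {B : Bridge P} (D : ChartData P.X (Bdl.genus P.X))
  {T T' : Scheme.{u}}

omit [IsAlgClosed k] in
/-- An affine scheme over a scheme over `k` as an affine point. -/
theorem exists_point_of (t : T ⟶ Spec (CommRingCat.of k)) (R : Type u) [CommRing R]
    (j : Spec (CommRingCat.of R) ⟶ T) :
    ∃ (_ : Algebra k R) (s : SchemeHomOver (tA (k := k) R) t), s.1 = j := by
  exact ⟨(Spec.preimage (j ≫ t)).hom.toAlgebra, ⟨j, (Spec.map_preimage _).symm⟩, rfl⟩

namespace Bridge

/-- The points of the base over which the family lies in the chart. -/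
def goodPoints (a : FamilyOn B.degCut T) : Set T :=
  {x | ∃ (K : Type u) (_ : Field K) (_ : Algebra k K) (s : SchemeHomOver (tA (k := k) K) a.t),
    s.1 (IsLocalRing.closedPoint K) = x ∧ D.IsGood (ptBdl a s)}

variable {D}

omit [IsAlgClosed k] in
/-- A field point landing in the image of a map lifts to a field extension. -/
theorem exists_common_point (a : FamilyOn B.degCut T) {K : Type u} [Field K]
    [Algebra k K] (s : SchemeHomOver (tA (k := k) K) a.t) (f : T' ⟶ T) (x : T')
    (hx : s.1 (IsLocalRing.closedPoint K) = f x) :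
    ∃ (L : Type u) (_ : Field L) (_ : Algebra k L) (h : K →ₐ[k] L)
      (q : Spec (CommRingCat.of L) ⟶ T'), q (IsLocalRing.closedPoint L) = x ∧
      q ≫ f = (overAlg h).1 ≫ s.1 := by
  obtain ⟨z, -, hz⟩ := Scheme.Pullback.exists_preimage_pullback (f := s.1) (g := f)
    (IsLocalRing.closedPoint K) x hx
  let E := (pullback s.1 f).residueField z
  let j := (pullback s.1 f).fromSpecResidueField z
  let : Algebra k E := (Spec.preimage (j ≫ pullback.fst s.1 f ≫ tA (k := k) K)).hom.toAlgebra
  let φ : SchemeHomOver (tA (k := k) E) (tA (k := k) K) :=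
    ⟨j ≫ pullback.fst s.1 f, (Category.assoc ..).trans (Spec.map_preimage _).symm⟩
  obtain ⟨h, hh⟩ := exists_overAlg φ
  refine ⟨E, inferInstance, inferInstance, h, j ≫ pullback.snd s.1 f, ?_, ?_⟩
  · show pullback.snd s.1 f (j _) = x
    exact (congrArg _ (Scheme.fromSpecResidueField_apply _ _)).trans hz
  · rw [hh, Category.assoc, ← pullback.condition, Category.assoc]

omit [IsAlgClosed k] in
theorem closedPoint_residueField {A : Type u} [CommRing A] [Algebra k A] (p : PrimeSpectrum A) :
    (overAlg (IsScalarTower.toAlgHom k A p.asIdeal.ResidueField)).1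
      (IsLocalRing.closedPoint p.asIdeal.ResidueField) = p :=
  PrimeSpectrum.ext ((congrArg (Ideal.comap _)
    (show IsLocalRing.maximalIdeal p.asIdeal.ResidueField = ⊥ from Ideal.eq_bot_of_prime _)).trans
      (Ideal.ker_algebraMap_residueField p.asIdeal))

/-- Goodness depends only on the image of a field point. -/
theorem isGood_iff_mem (a : FamilyOn B.degCut T) {K : Type u} [Field K] [Algebra k K]
    (s : SchemeHomOver (tA (k := k) K) a.t) :
    D.IsGood (ptBdl a s) ↔ s.1 (IsLocalRing.closedPoint K) ∈ goodPoints D a := by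
  refine ⟨fun h => ⟨K, _, _, s, rfl, h⟩, ?_⟩
  rintro ⟨K', _, _, s', hs', h⟩
  obtain ⟨E, _, _, e, q, hq, hcomm⟩ :=
    exists_common_point a s' s.1 (IsLocalRing.closedPoint K) hs'
  have hq' : q ≫ tA (k := k) K = tA (k := k) E := by
    rw [← s.2, ← Category.assoc, hcomm, Category.assoc, s'.2, (overAlg e).2]
  obtain ⟨e', he'⟩ := exists_overAlg (⟨q, hq'⟩ : SchemeHomOver (tA (k := k) E) (tA (k := k) K))
  refine ChartData.IsGood.of_map_field P.e_y e' (ptBdl_rigid s) (ptBdl_deg s) ?_
  refine ChartData.IsGood.congr ?_ (h.map e)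
  exact Setoid.trans (Setoid.symm (ptBdl_comp e s' (postComp s' (overAlg e)) rfl))
    (ptBdl_comp e' s _ (by rw [he']; exact hcomm.symm))

omit [IsAlgClosed k] in
/-- Equivalent families have the same good points. -/
theorem goodPoints_congr {a b : FamilyOn B.degCut T} (h : a ≈ b) :
    goodPoints D a = goodPoints D b := by
  suffices key : ∀ {a b : FamilyOn B.degCut T}, a ≈ b → goodPoints D a ⊆ goodPoints D b from
    (key h).antisymm (key (Setoid.symm h))
  rintro a b h x ⟨K, _, _, s, hs, hgood⟩
  have ht : b.t = a.t := (Category.id_comp _).symm.trans h.choose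
  exact ⟨K, _, _, ⟨s.1, by rw [ht]; exact s.2⟩, hs,
    ChartData.IsGood.congr (ptBdl_congr h s _ rfl) hgood⟩

/-- The good points of a pullback are the preimage of the good points. -/
theorem goodPoints_map (f : T' ⟶ T) (a : FamilyOn B.degCut T) :
    goodPoints D (a.map f) = f ⁻¹' goodPoints D a := by
  ext x
  constructor
  · rintro ⟨K, _, _, s, hs, hgood⟩
    let s' : SchemeHomOver (tA (k := k) K) a.t :=
      ⟨s.1 ≫ f, by rw [Category.assoc]; exact s.2⟩
    exact ⟨K, _, _, s', congrArg f hs,
      ChartData.IsGood.congr (ptBdl_map f a s s' rfl) hgood⟩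
  · rintro ⟨K, _, _, s, hs, hgood⟩
    obtain ⟨E, _, _, e, q, hq, hcomm⟩ := exists_common_point a s f x hs
    let s' : SchemeHomOver (tA (k := k) E) (a.map f).t := ⟨q, by
      show q ≫ f ≫ a.t = _
      rw [← Category.assoc, hcomm, Category.assoc, s.2, (overAlg e).2]⟩
    refine ⟨E, _, _, s', hq, ChartData.IsGood.congr ?_ (hgood.map e)⟩
    exact Setoid.trans (Setoid.symm (ptBdl_comp e s (postComp s (overAlg e)) rfl))
      (Setoid.symm (ptBdl_map f a s' _ hcomm.symm))

/-- The points at which a family is good for a chart form an open set. -/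
theorem isOpen_goodPoints (a : FamilyOn B.degCut T) : IsOpen (goodPoints D a) := by
  refine isOpen_iff_forall_mem_open.mpr fun x hx => ?_
  obtain ⟨R, _, j, hj, y, hy⟩ : ∃ (R : Type u) (_ : CommRing R)
      (j : Spec (CommRingCat.of R) ⟶ T), IsOpenImmersion j ∧ ∃ y, j y = x := by
    obtain ⟨i, y, hy⟩ := T.affineCover.exists_eq x
    exact ⟨T.affineOpenCover.X i, inferInstance, T.affineCover.f i,
      T.affineCover.map_prop i, y, hy⟩
  obtain ⟨alg, s, hs⟩ := exists_point_of a.t R j
  let := alg
  obtain ⟨K, _, _, q, hq, hgood⟩ := hx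
  obtain ⟨q', hq'⟩ : ∃ q' : Spec (CommRingCat.of K) ⟶ Spec (CommRingCat.of R), q' ≫ j = q.1 :=
    ⟨IsOpenImmersion.lift j q.1 (by
      rintro _ ⟨z, rfl⟩
      rw [show z = IsLocalRing.closedPoint K from Subsingleton.elim (α := PrimeSpectrum K) _ _, hq]
      exact ⟨y, hy⟩), IsOpenImmersion.lift_fac _ _ _⟩
  obtain ⟨f, hf⟩ := exists_overAlg (⟨q', by rw [← s.2, ← Category.assoc, hs, hq', q.2]⟩ :
    SchemeHomOver (tA (k := k) K) (tA (k := k) R))
  obtain ⟨b, hb, hnear⟩ := ChartData.exists_isGood_near P.e_y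
    (ptBdl_rigid s) (ptBdl_deg s) f
    (ChartData.IsGood.congr (ptBdl_comp f s q
      ((hq'.symm.trans (congrArg (q' ≫ ·) hs.symm)).trans (congrArg (· ≫ s.1) hf.symm))) hgood)
  refine ⟨j '' (PrimeSpectrum.basicOpen b : Set (PrimeSpectrum R)), ?_,
    j.isOpenEmbedding.isOpenMap _ (PrimeSpectrum.basicOpen b).isOpen,
    ⟨q' (IsLocalRing.closedPoint K), ?_, ?_⟩⟩
  · rintro _ ⟨p, hp, rfl⟩
    change PrimeSpectrum R at p
    let E := p.asIdeal.ResidueField
    let h : R →ₐ[k] E := IsScalarTower.toAlgHom k R E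
    have hu : IsUnit (h b) :=
      isUnit_iff_ne_zero.mpr fun h0 => hp (Ideal.algebraMap_residueField_eq_zero.mp h0)
    refine ⟨E, _, _, postComp s (overAlg h), ?_,
      ChartData.IsGood.congr (Setoid.symm (ptBdl_comp h s _ rfl)) (hnear E h hu)⟩
    show s.1 ((overAlg h).1 _) = j p
    rw [hs]
    exact congrArg j (closedPoint_residueField p)
  · have e : q' = (overAlg f).1 := hf.symm
    rw [e]
    show b ∉ ((PrimeSpectrum.comap f.toRingHom) (IsLocalRing.closedPoint K)).asIdeal
    intro h0
    exact hb (by simpa [IsLocalRing.closedPoint] using h0)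
  · show j (q' _) = x
    rw [← hq, ← hq']
    rfl

/-- The locus of the chart. -/
def chartLocus (D : ChartData P.X (Bdl.genus P.X))
    (a : FamilyOn B.degCut T) : T.Opens :=
  ⟨goodPoints D a, isOpen_goodPoints a⟩

/-- An affine point in the locus is good, and conversely. -/
theorem isGood_iff_range_subset (a : FamilyOn B.degCut T) {A : Type u} [CommRing A]
    [Algebra k A] (s : SchemeHomOver (tA (k := k) A) a.t) :
    D.IsGood (ptBdl a s) ↔ Set.range s.1 ⊆ chartLocus D a := by
  constructor
  · rintro h _ ⟨p, rfl⟩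
    change PrimeSpectrum A at p
    let E := p.asIdeal.ResidueField
    let f : A →ₐ[k] E := IsScalarTower.toAlgHom k A E
    refine ⟨E, _, _, postComp s (overAlg f), ?_,
      ChartData.IsGood.congr (Setoid.symm (ptBdl_comp f s _ rfl)) (h.map f)⟩
    show s.1 ((overAlg f).1 _) = s.1 p
    exact congrArg s.1 (closedPoint_residueField p)
  · intro h
    refine ChartData.isGood_of_fibres P.e_y (ptBdl_rigid s) (ptBdl_deg s) fun K _ _ _ f => ?_
    refine ChartData.IsGood.congr (ptBdl_comp f s (postComp s (overAlg f)) rfl)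
      ((isGood_iff_mem a _).mpr ?_)
    exact h ⟨_, rfl⟩

end Bridge

end FermatAgent.Pic
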