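import Fermat.Agent.Pic.Rep.DegZero
import Fermat.Agent.Pic.Rep.OfPoints
import Fermat.Agent.Pic.Glue.Classes

/-!
# Bundles of the affine points of a family

Each affine point of a family has a rigid bundle of degree zero, and a family is determined up to
equivalence by these bundles.
-/

set_option autoImplicit false

noncomputable section

universe u

open CategoryTheory CategoryTheory.Limits AlgebraicGeometry NeronModelInfra
  AlgebraicGeometry.RelPicard

namespace FermatAgent.Pic

variable {k : Type u} [Field k] {C : Scheme.{u}} {c : C ⟶ Spec (CommRingCat.of k)}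
  {ε : SchemeHomOver (𝟙 (Spec (CommRingCat.of k))) c} {P : Pres c ε} {B : Bridge P}
  {T T' : Scheme.{u}}

namespace Bridge

/-- The bundle of an affine point of a family. -/
def ptBdl (a : FamilyOn B.degCut T) {A : Type u} [CommRing A] [Algebra k A]
    (s : SchemeHomOver (tA (k := k) A) a.t) : Bdl P.X A :=
  B.bdl (a.M.pullbackAlong s)

/-- The bundle of a point is rigid. -/
theorem ptBdl_rigid {a : FamilyOn B.degCut T} {A : Type u} [CommRing A] [Algebra k A]
    (s : SchemeHomOver (tA (k := k) A) a.t) : (ptBdl a s).IsRigid (P.X.cst A P.e) :=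
  B.bdl_rigid _

/-- The bundle of a point has degree zero. -/
theorem ptBdl_deg {a : FamilyOn B.degCut T} {A : Type u} [CommRing A] [Algebra k A]
    (s : SchemeHomOver (tA (k := k) A) a.t) : (ptBdl a s).HasDeg 0 :=
  a.mem A s

/-- The bundle of a point commutes with change of parameters. -/
theorem ptBdl_comp {a : FamilyOn B.degCut T} {A A' : Type u} [CommRing A] [Algebra k A]
    [CommRing A'] [Algebra k A'] (f : A →ₐ[k] A') (s : SchemeHomOver (tA (k := k) A) a.t)
    (s' : SchemeHomOver (tA (k := k) A') a.t) (h : s'.1 = (overAlg f).1 ≫ s.1) :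
    ptBdl a s' ≈ (ptBdl a s).map f :=
  Setoid.trans (B.bdl_congr ((sameClass_pullbackAlong_congr _ (ψ := postComp s (overAlg f)) h).trans
    (sameClass_pullbackAlong_comp _ _ _).symm)) (B.bdl_pullback f _)

/-- The point of an equivalent family with the same underlying map. -/
theorem ptBdl_congr {a b : FamilyOn B.degCut T} (h : a ≈ b) {A : Type u} [CommRing A]
    [Algebra k A] (s : SchemeHomOver (tA (k := k) A) a.t) (s' : SchemeHomOver (tA (k := k) A) b.t)
    (hs : s'.1 = s.1) : ptBdl a s ≈ ptBdl b s' := by
  obtain ⟨h', e⟩ := h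
  refine B.bdl_congr ((e.symm.pullback s).trans ((sameClass_pullbackAlong_comp _ _ _).trans ?_))
  exact sameClass_pullbackAlong_congr _ (by simp [postComp, hs])

/-- The bundle of a point of a pullback is that of the composite point. -/
theorem ptBdl_map (g : T' ⟶ T) (a : FamilyOn B.degCut T) {A : Type u} [CommRing A]
    [Algebra k A] (s : SchemeHomOver (tA (k := k) A) (a.map g).t)
    (s' : SchemeHomOver (tA (k := k) A) a.t) (hs : s'.1 = s.1 ≫ g) :
    ptBdl (a.map g) s ≈ ptBdl a s' :=
  B.bdl_congr ((sameClass_pullbackAlong_comp _ _ _).trans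
    (sameClass_pullbackAlong_congr _ hs.symm))

/-- Families with the same bundles at all affine points are equivalent. -/
theorem rel_of_points {a b : FamilyOn B.degCut T} (ht : b.t = a.t)
    (h : ∀ (A : Type u) [CommRing A] [Algebra k A] (s : SchemeHomOver (tA (k := k) A) a.t),
      ptBdl b (⟨s.1, by rw [ht]; exact s.2⟩ : SchemeHomOver (tA (k := k) A) b.t) ≈ ptBdl a s) :
    a ≈ b := by
  refine ⟨by rw [Category.id_comp, ht], ?_⟩
  let 𝒰 : Scheme.OpenCover.{u + 1} T :=
    Scheme.Cover.mkOfCovers (ULift.{u + 1} T.affineOpenCover.I₀)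
      (fun i => Spec (T.affineOpenCover.X i.down)) (fun i => T.affineOpenCover.f i.down)
      (fun x => ⟨⟨T.affineOpenCover.idx x⟩, T.affineOpenCover.covers x⟩)
      (fun i => T.affineOpenCover.map_prop i.down)
  refine (Glue.classGluing_of_pres P).unique a.t 𝒰 _ _ fun i => ?_
  let R := T.affineOpenCover.X i.down
  let : Algebra k R := (Spec.preimage (T.affineOpenCover.f i.down ≫ a.t)).hom.toAlgebra
  have hR : T.affineOpenCover.f i.down ≫ a.t = tA (k := k) R := (Spec.map_preimage _).symm
  let s : SchemeHomOver (tA (k := k) R) a.t := ⟨T.affineOpenCover.f i.down, hR⟩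
  have e := (B.bdl_iso_iff _ _).mp (h R s)
  -- move from the affine structure map to that of the piece
  let v : SchemeHomOver (T.affineOpenCover.f i.down ≫ a.t) (tA (k := k) R) :=
    ⟨𝟙 _, by rw [Category.id_comp, hR]⟩
  refine ((sameClass_pullbackAlong_comp b.M _ _).trans ?_).trans (((e.pullback v).trans
    (sameClass_pullbackAlong_comp a.M s v)).trans ?_)
  · exact (sameClass_pullbackAlong_congr _ (by simp [postComp, v, s]; rfl)).trans
      (sameClass_pullbackAlong_comp b.M _ v).symm
  · exact sameClass_pullbackAlong_congr _ (by simp [v, s, postComp]; rfl)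

end Bridge

end FermatAgent.Pic
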